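/-
S41, block [IH], arithmetic glue, part 4: **a homomorphism `Γ₀(N)[1/q] → ZMod p` which kills the
parabolic and elliptic elements of `Γ₀(N)` vanishes on `Γ(N)[1/q]`**, given

* `hcore` : centrality `[SL₂(A), Γ(N)[1/q]] ⊂ Elem N` (block IH2-core, helper24),
* `hgen`  : `SL₂(A)` is generated by elementary matrices (helper27),
* `hF`    : the abstract finite-group statement (block IH2-F, helper17 / helper2), in the form
  `FStatement`.
-/
import Mathlib
import Fermat.Agent.S41.IH.Quotient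

set_option autoImplicit false

open scoped MatrixGroups

universe u

namespace Fermat.Agent.S41.IH

open Matrix CongruenceSubgroup
open Fermat.Agent.N4F.Tors.HeckeHom Fermat.Agent.S41.CSP

/-- The abstract finite-group input (block IH2-F): a central extension of `SL₂(ℤ/N)` with kernel of
exponent `p`, generated by additive lifts of the elementary matrices with the Weyl relation, which
carries a function `f` additive over the Borel subgroup, vanishing on the `u t` and injective on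
the kernel, is trivial. -/
def FStatement (N p : ℕ) : Prop :=
  ∀ (D : Type u) [Group D] (C : Descent.LiftCore N p D) (f : D → ZMod p),
    (∀ x y, (C.π x).1 1 0 = 0 → (C.π y).1 1 0 = 0 → f (x * y) = f x + f y) →
    (∀ t, f (C.u t) = 0) →
    (∀ z, C.π z = 1 → f z = 0 → z = 1) →
    ∀ z, C.π z = 1 → z = 1

section Phi

variable {A : Type u} [CommRing A] {N p : ℕ}

/-- `φ` extended by zero to `SL₂(A)` -/
noncomputable def phiFun (φ : Additive ↥(G0 (lvl A N)) →+ ZMod p)
    (g : Matrix.SpecialLinearGroup (Fin 2) A) : ZMod p := by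
  classical
  exact if h : g ∈ G0 (lvl A N) then φ (Additive.ofMul ⟨g, h⟩) else 0

theorem phiFun_of_mem (φ : Additive ↥(G0 (lvl A N)) →+ ZMod p)
    {g : Matrix.SpecialLinearGroup (Fin 2) A} (h : g ∈ G0 (lvl A N)) :
    phiFun φ g = φ (Additive.ofMul ⟨g, h⟩) := by
  unfold phiFun
  rw [dif_pos h]

theorem phiFun_mul_kerSub (φ : Additive ↥(G0 (lvl A N)) →+ ZMod p)
    (a b : Matrix.SpecialLinearGroup (Fin 2) A) (hab : a⁻¹ * b ∈ kerSub φ) :
    phiFun φ a = phiFun φ b := by
  obtain ⟨hk, hk'⟩ := hab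
  have hk0 : a⁻¹ * b ∈ G0 (lvl A N) := Gam_le_G0 _ hk
  by_cases ha : a ∈ G0 (lvl A N)
  · have hb : b ∈ G0 (lvl A N) := by
      have : b = a * (a⁻¹ * b) := by group
      rw [this]; exact mul_mem ha hk0
    rw [phiFun_of_mem φ ha, phiFun_of_mem φ hb]
    have h1 : (⟨b, hb⟩ : ↥(G0 (lvl A N))) = ⟨a, ha⟩ * ⟨a⁻¹ * b, hk0⟩ := by
      apply Subtype.ext
      show b = a * (a⁻¹ * b)
      group
    rw [h1, ofMul_mul, map_add, hk', add_zero]
  · have hb : b ∉ G0 (lvl A N) := by
      intro hb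
      apply ha
      have : a = b * (a⁻¹ * b)⁻¹ := by group
      rw [this]; exact mul_mem hb (inv_mem hk0)
    unfold phiFun
    rw [dif_neg ha, dif_neg hb]

/-- `φ` as a function on `D = SL₂(A) ⧸ kerSub φ` -/
noncomputable def phiD (φ : Additive ↥(G0 (lvl A N)) →+ ZMod p) :
    Matrix.SpecialLinearGroup (Fin 2) A ⧸ kerSub φ → ZMod p :=
  fun d => Quotient.liftOn' d (phiFun φ) (fun a b hab =>
    phiFun_mul_kerSub φ a b (QuotientGroup.leftRel_apply.mp hab))

theorem phiD_mk (φ : Additive ↥(G0 (lvl A N)) →+ ZMod p)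
    (g : Matrix.SpecialLinearGroup (Fin 2) A) :
    phiD φ (QuotientGroup.mk g) = phiFun φ g := rfl

end Phi

section Final

variable (q : ℕ) {A : Type u} [CommRing A] [Algebra ℤ A] [IsLocalization.Away (q : ℤ) A]
variable {N : ℕ} [NeZero N] (p : ℕ) [Fact p.Prime]

omit [Algebra ℤ A] [NeZero N] in
theorem pow_mem_kerSub (φ : Additive ↥(G0 (lvl A N)) →+ ZMod p)
    (x : Matrix.SpecialLinearGroup (Fin 2) A) (hx : x ∈ Gam (lvl A N)) : x ^ p ∈ kerSub φ := by
  refine ⟨pow_mem hx p, ?_⟩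
  have h1 : (⟨x ^ p, Gam_le_G0 _ (pow_mem hx p)⟩ : ↥(G0 (lvl A N))) =
      (⟨x, Gam_le_G0 _ hx⟩ : ↥(G0 (lvl A N))) ^ p := rfl
  rw [h1, ofMul_pow, map_nsmul, nsmul_eq_mul, ZMod.natCast_self, zero_mul]

/-- **Vanishing on `Γ(N)[1/q]`.** -/
theorem eq_zero_of_mem_Gam (hq : q.Prime) (hpq : p ≠ q) (hqN : Nat.Coprime q N)
    (φ : Additive ↥(G0 (lvl A N)) →+ ZMod p)
    (hφ : ∀ γ : ↥(Gamma0 N), IsParEll (γ : SL(2, ℤ)) → φ (Additive.ofMul (castG0 A N γ)) = 0)
    (hcore : ∀ γ x : Matrix.SpecialLinearGroup (Fin 2) A, x ∈ Gam (lvl A N) →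
      γ * x * γ⁻¹ * x⁻¹ ∈ Elem (lvl A N))
    (hgen : Subgroup.closure (Set.range (e12 : A → Matrix.SpecialLinearGroup (Fin 2) A) ∪
      Set.range (e21 : A → Matrix.SpecialLinearGroup (Fin 2) A)) = ⊤)
    (hF : FStatement.{u} N p)
    (g : Matrix.SpecialLinearGroup (Fin 2) A) (hg : g ∈ Gam (lvl A N)) :
    φ (Additive.ofMul ⟨g, Gam_le_G0 _ hg⟩) = 0 := by
  have htr := trace_two_eq_zero q p hq hpq hqN φ hφ
  have hE : Elem (lvl A N) ≤ kerSub φ := Elem_le_kerSub φ htr
  have hn : (kerSub φ).Normal := kerSub_normal φ hE hcore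
  let C := liftCore (q := q) (N := N) (kerSub φ) p hqN (kerSub_le_Gam φ) hE
    (fun γ x hx => hE (hcore γ x hx)) (pow_mem_kerSub p φ) hgen
  have key := hF (Matrix.SpecialLinearGroup (Fin 2) A ⧸ kerSub φ) C (phiD φ) ?_ ?_ ?_
    (QuotientGroup.mk g) ((red_eq_one_iff q N hqN g).mpr hg)
  · obtain ⟨_, h2⟩ := (QuotientGroup.eq_one_iff g).mp key
    exact h2
  · -- additivity over the Borel subgroup
    intro x y hx hy
    induction x using QuotientGroup.induction_on with
    | H a =>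
    induction y using QuotientGroup.induction_on with
    | H b =>
    have ha : a ∈ G0 (lvl A N) := by
      rw [mem_G0, ← redHom_eq_zero_iff q N hqN]
      exact hx
    have hb : b ∈ G0 (lvl A N) := by
      rw [mem_G0, ← redHom_eq_zero_iff q N hqN]
      exact hy
    rw [← QuotientGroup.mk_mul, phiD_mk, phiD_mk, phiD_mk, phiFun_of_mem φ ha,
      phiFun_of_mem φ hb, phiFun_of_mem φ (mul_mem ha hb), ← map_add, ← ofMul_mul]
    rfl
  · -- vanishing on the `u t`
    intro t
    show phiD φ (QuotientGroup.mk (e12 (liftZ A t))) = 0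
    have hmem : e12 (liftZ A t) ∈ G0 (lvl A N) := by
      rw [mem_G0, e12_10]; exact Ideal.zero_mem _
    rw [phiD_mk, phiFun_of_mem φ hmem]
    exact htr _ (tr_e12 _)
  · -- injectivity on the kernel
    intro z hz hfz
    induction z using QuotientGroup.induction_on with
    | H a =>
    have ha : a ∈ Gam (lvl A N) := (red_eq_one_iff q N hqN a).mp hz
    rw [phiD_mk, phiFun_of_mem φ (Gam_le_G0 _ ha)] at hfz
    exact (QuotientGroup.eq_one_iff a).mpr ⟨ha, hfz⟩

end Final

end Fermat.Agent.S41.IH
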