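/-
S41, block [IH], arithmetic glue, part 5: the generic form of Ihara's lemma.

`A = ℤ[1/q]`.  `conjG0 q A N γ = [[a, b/q], [q c, d]] = η⁻¹ γ η` (`η = diag(q, 1)`) is the second
embedding `Γ₀(N) → Γ₀(N)[1/q]`.  If `φ : Γ₀(N)[1/q] → ZMod p` restricts to `φ₁` on `Γ₀(N)` and to
`-φ₂` on `η⁻¹ Γ₀(N) η`, and `φ₁` is parabolic, then `φ₁` and `φ₂` vanish on `Γ₀(N) ∩ Γ(N)`.
-/
import Mathlib
import Fermat.Agent.S41.IH.Vanish

set_option autoImplicit false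

open scoped MatrixGroups

universe u

namespace Fermat.Agent.S41.IH

open Matrix CongruenceSubgroup
open Fermat.Agent.N4F.Tors.HeckeHom Fermat.Agent.S41.CSP

section Conj

variable (q : ℕ) (A : Type u) [CommRing A] [Algebra ℤ A] [IsLocalization.Away (q : ℤ) A]

/-- `1 / q ∈ ℤ[1/q]` -/
noncomputable def qinv : A := IsLocalization.Away.invSelf (q : ℤ)

theorem q_mul_qinv : (q : A) * qinv q A = 1 := by
  have h := IsLocalization.Away.mul_invSelf (S := A) (q : ℤ)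
  rwa [map_natCast] at h

theorem qinv_mul_q : qinv q A * (q : A) = 1 := by
  rw [mul_comm, q_mul_qinv]

/-- `η⁻¹ γ η = [[a, b / q], [q c, d]]`, `η = diag(q, 1)` -/
noncomputable def conjSL (γ : SL(2, ℤ)) : Matrix.SpecialLinearGroup (Fin 2) A :=
  ⟨!![algebraMap ℤ A (γ 0 0), algebraMap ℤ A (γ 0 1) * qinv q A;
      (q : A) * algebraMap ℤ A (γ 1 0), algebraMap ℤ A (γ 1 1)], by
    have hdet : γ 0 0 * γ 1 1 - γ 0 1 * γ 1 0 = 1 := by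
      have := γ.det_coe
      rwa [Matrix.det_fin_two] at this
    have hdet' : algebraMap ℤ A (γ 0 0) * algebraMap ℤ A (γ 1 1) -
        algebraMap ℤ A (γ 0 1) * algebraMap ℤ A (γ 1 0) = 1 := by
      rw [← map_mul, ← map_mul, ← map_sub, hdet, map_one]
    rw [Matrix.det_fin_two_of]
    linear_combination hdet' - (algebraMap ℤ A (γ 0 1) * algebraMap ℤ A (γ 1 0)) *
      qinv_mul_q q A⟩

@[simp] theorem conjSL_00 (γ : SL(2, ℤ)) : conjSL q A γ 0 0 = algebraMap ℤ A (γ 0 0) := rfl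
@[simp] theorem conjSL_01 (γ : SL(2, ℤ)) :
    conjSL q A γ 0 1 = algebraMap ℤ A (γ 0 1) * qinv q A := rfl
@[simp] theorem conjSL_10 (γ : SL(2, ℤ)) :
    conjSL q A γ 1 0 = (q : A) * algebraMap ℤ A (γ 1 0) := rfl
@[simp] theorem conjSL_11 (γ : SL(2, ℤ)) : conjSL q A γ 1 1 = algebraMap ℤ A (γ 1 1) := rfl

variable {A}

theorem algebraMap_mem_lvl {N : ℕ} {z : ℤ} (h : ((z : ℤ) : ZMod N) = 0) :
    algebraMap ℤ A z ∈ lvl A N := by
  obtain ⟨c, hc⟩ := (ZMod.intCast_zmod_eq_zero_iff_dvd _ _).mp h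
  rw [hc, map_mul]
  refine Ideal.mul_mem_right _ _ (Ideal.subset_span ?_)
  simp

theorem algebraMap_sub_one_mem_lvl {N : ℕ} {z : ℤ} (h : ((z : ℤ) : ZMod N) = 1) :
    algebraMap ℤ A z - 1 ∈ lvl A N := by
  have h1 : (((z - 1 : ℤ) : ℤ) : ZMod N) = 0 := by
    push_cast
    rw [h, sub_self]
  have h2 := algebraMap_mem_lvl (A := A) h1
  rwa [map_sub, map_one] at h2

variable (A)

theorem conjSL_mem_G0 (N : ℕ) (γ : ↥(Gamma0 N)) : conjSL q A (γ : SL(2, ℤ)) ∈ G0 (lvl A N) := by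
  rw [mem_G0, conjSL_10]
  exact Ideal.mul_mem_left _ _ (algebraMap_mem_lvl (Gamma0_mem.mp γ.2))

/-- the second embedding `Γ₀(N) → Γ₀(N)[1/q]`, `γ ↦ η⁻¹ γ η` -/
noncomputable def conjG0 (N : ℕ) (γ : ↥(Gamma0 N)) : ↥(G0 (lvl A N)) :=
  ⟨conjSL q A (γ : SL(2, ℤ)), conjSL_mem_G0 q A N γ⟩

@[simp] theorem coe_conjG0 (N : ℕ) (γ : ↥(Gamma0 N)) :
    ((conjG0 q A N γ : ↥(G0 (lvl A N))) : Matrix.SpecialLinearGroup (Fin 2) A) =
      conjSL q A (γ : SL(2, ℤ)) := rfl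

theorem mapZ_mem_Gam {N : ℕ} {γ : SL(2, ℤ)} (hγ : γ ∈ Gamma N) : mapZ A γ ∈ Gam (lvl A N) := by
  rw [Gamma_mem] at hγ
  rw [mem_Gam_iff]
  simp only [mapZ_apply]
  exact ⟨algebraMap_sub_one_mem_lvl hγ.1, algebraMap_mem_lvl hγ.2.1, algebraMap_mem_lvl hγ.2.2.1,
    algebraMap_sub_one_mem_lvl hγ.2.2.2⟩

theorem conjSL_mem_Gam {N : ℕ} {γ : SL(2, ℤ)} (hγ : γ ∈ Gamma N) :
    conjSL q A γ ∈ Gam (lvl A N) := by
  rw [Gamma_mem] at hγ
  rw [mem_Gam_iff]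
  simp only [conjSL_00, conjSL_01, conjSL_10, conjSL_11]
  exact ⟨algebraMap_sub_one_mem_lvl hγ.1, Ideal.mul_mem_right _ _ (algebraMap_mem_lvl hγ.2.1),
    Ideal.mul_mem_left _ _ (algebraMap_mem_lvl hγ.2.2.1), algebraMap_sub_one_mem_lvl hγ.2.2.2⟩

end Conj

section Ihara

variable (q : ℕ) {A : Type u} [CommRing A] [Algebra ℤ A] [IsLocalization.Away (q : ℤ) A]
variable {N : ℕ} [NeZero N] (p : ℕ) [Fact p.Prime]

/-- **Ihara's lemma, generic form.**  A homomorphism `φ` on `Γ₀(N)[1/q]` whose restriction `φ₁` to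
`Γ₀(N)` is parabolic, and whose restriction to `η⁻¹ Γ₀(N) η` is `-φ₂`, has `φ₁ = φ₂ = 0` on
`Γ₀(N) ∩ Γ(N)`. -/
theorem vanish_of_extension (hq : q.Prime) (hpq : p ≠ q) (hqN : Nat.Coprime q N)
    (hcore : ∀ γ x : Matrix.SpecialLinearGroup (Fin 2) A, x ∈ Gam (lvl A N) →
      γ * x * γ⁻¹ * x⁻¹ ∈ Elem (lvl A N))
    (hgen : Subgroup.closure (Set.range (e12 : A → Matrix.SpecialLinearGroup (Fin 2) A) ∪
      Set.range (e21 : A → Matrix.SpecialLinearGroup (Fin 2) A)) = ⊤)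
    (hF : FStatement.{u} N p)
    (φ : Additive ↥(G0 (lvl A N)) →+ ZMod p) (φ₁ φ₂ : Additive ↥(Gamma0 N) →+ ZMod p)
    (h₁ : ∀ γ : ↥(Gamma0 N), φ (Additive.ofMul (castG0 A N γ)) = φ₁ (Additive.ofMul γ))
    (h₂ : ∀ γ : ↥(Gamma0 N), φ (Additive.ofMul (conjG0 q A N γ)) = - φ₂ (Additive.ofMul γ))
    (hpar : φ₁ ∈ parHomAdd N (ZMod p))
    (g : ↥(Gamma0 N)) (hg : (g : SL(2, ℤ)) ∈ Gamma N) :
    φ₁ (Additive.ofMul g) = 0 ∧ φ₂ (Additive.ofMul g) = 0 := by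
  have hφ : ∀ γ : ↥(Gamma0 N), IsParEll (γ : SL(2, ℤ)) →
      φ (Additive.ofMul (castG0 A N γ)) = 0 := by
    intro γ hγ
    rw [h₁]
    exact hpar γ hγ
  have key := eq_zero_of_mem_Gam q p hq hpq hqN φ hφ hcore hgen hF
  constructor
  · rw [← h₁]
    exact key _ (mapZ_mem_Gam A hg)
  · have h := key _ (conjSL_mem_Gam q A hg)
    have h' : φ (Additive.ofMul (conjG0 q A N g)) = 0 := h
    rw [h₂, neg_eq_zero] at h'
    exact h'

end Ihara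

end Fermat.Agent.S41.IH
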