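/-
S41, block [IH], arithmetic glue, part 6: Ihara's lemma for `Γ₀(N)`, `q ∤ N`, `p ≠ q` odd,
from

* [IH1] the amalgam `Γ₀(N)[1/q] = Γ₀(N) *_{Γ₀(Nq)} η⁻¹Γ₀(N)η` (`IH1.exists_extension`-shaped
  hypothesis `ExtStatement`),
* [IH2-core] centrality of the congruence kernel (`CSP.commutator_mem_Elem`),
* [IH2-ElemGen] `SL₂(ℤ[1/q])` is generated by elementary matrices,
* [IH2-F] the finite group statement `LStatement` (no non-trivial central extension data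
  `LiftData N p D`).

Here: the dictionary between the generic `A = ℤ[1/q]`-language of this directory and the concrete
model `IH1.ZInv q ⊂ ℚ`, `IH1.GG N q ⊂ SL(2,ℚ)`.
-/
import Mathlib
import Fermat.Agent.S41.IH.Generic
import Fermat.Agent.S41.IH1.Generation
import Fermat.Agent.S41.CSP.Central
import Fermat.Agent.S41.CSP.ElemGen
import Fermat.Agent.S41.CSP.OfHom

set_option autoImplicit false

open scoped MatrixGroups

universe u

namespace Fermat.Agent.S41.IH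

open Matrix CongruenceSubgroup
open Fermat.Agent.N4F.Tors.HeckeHom Fermat.Agent.S41.CSP

/-! ### [IH2-F] in `LiftData` form -/

/-- the finite group input, `LiftData` form: the kernel of `π` is trivial -/
def LStatement (N p : ℕ) : Prop :=
  ∀ (D : Type u) [Group D] (L : Descent.LiftData N p D), ∀ z, L.π z = 1 → z = 1

theorem fStatement_of_lStatement {N p : ℕ} (hp : p.Prime) (hp2 : p ≠ 2)
    (h : LStatement.{u} N p) : FStatement.{u} N p := by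
  intro D _ C f hmul hu hinj
  exact Descent.OfHom.ker_trivial_of_hom C f hmul hu hinj hp hp2 (fun L _ => h D L)

/-! ### `IH1.ZInv q` is `ℤ[1/q]` -/

section ZInv

variable (q : ℕ)

theorem coe_algebraMap_ZInv (z : ℤ) :
    ((algebraMap ℤ ↥(IH1.ZInv q) z : ↥(IH1.ZInv q)) : ℚ) = (z : ℚ) := by
  rw [eq_intCast (algebraMap ℤ ↥(IH1.ZInv q)) z]
  push_cast
  rfl

theorem isLocalization_ZInv (hq : q ≠ 0) : IsLocalization.Away (q : ℤ) ↥(IH1.ZInv q) := by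
  have hq' : (q : ℚ) ≠ 0 := by exact_mod_cast hq
  refine (isLocalization_iff _ _).mpr ⟨?_, ?_, ?_⟩
  · rintro ⟨y, n, rfl⟩
    have hmem : ((q : ℚ) ^ n)⁻¹ ∈ IH1.ZInv q := ⟨n, 1, by field_simp; simp⟩
    refine IsUnit.of_mul_eq_one ⟨((q : ℚ) ^ n)⁻¹, hmem⟩ ?_
    apply Subtype.ext
    rw [Subring.coe_mul, coe_algebraMap_ZInv]
    push_cast
    field_simp
  · rintro ⟨x, n, z, hz⟩
    refine ⟨(z, ⟨(q : ℤ) ^ n, n, rfl⟩), ?_⟩
    apply Subtype.ext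
    rw [Subring.coe_mul, coe_algebraMap_ZInv, coe_algebraMap_ZInv]
    push_cast
    exact hz
  · intro x y h
    refine ⟨1, ?_⟩
    have h' := congrArg (fun s : ↥(IH1.ZInv q) => (s : ℚ)) h
    simp only [coe_algebraMap_ZInv] at h'
    have : x = y := by exact_mod_cast h'
    rw [this]

/-- entrywise inclusion `SL₂(ℤ[1/q]) → SL(2,ℚ)` -/
def toQ : Matrix.SpecialLinearGroup (Fin 2) ↥(IH1.ZInv q) →* SL(2, ℚ) :=
  Matrix.SpecialLinearGroup.map (IH1.ZInv q).subtype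

@[simp] theorem toQ_apply (g : Matrix.SpecialLinearGroup (Fin 2) ↥(IH1.ZInv q)) (i j : Fin 2) :
    toQ q g i j = ((g i j : ↥(IH1.ZInv q)) : ℚ) := rfl

theorem toQ_mem_GG (N : ℕ) (g : ↥(G0 (lvl ↥(IH1.ZInv q) N))) :
    toQ q (g : Matrix.SpecialLinearGroup (Fin 2) ↥(IH1.ZInv q)) ∈ IH1.GG N q := by
  rw [IH1.mem_GG_iff]
  refine ⟨fun i j => ?_, ?_⟩
  · rw [toQ_apply]
    exact Subtype.property _
  · obtain ⟨a, ha⟩ := Ideal.mem_span_singleton'.mp (mem_G0.mp g.2)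
    refine ⟨(a : ℚ), a.2, ?_⟩
    rw [toQ_apply, ← ha]
    push_cast
    ring

/-- the dictionary `Γ₀(N)[1/q] → IH1.GG N q` -/
def toGG (N : ℕ) : ↥(G0 (lvl ↥(IH1.ZInv q) N)) →* ↥(IH1.GG N q) :=
  ((toQ q).comp (G0 (lvl ↥(IH1.ZInv q) N)).subtype).codRestrict (IH1.GG N q) (toQ_mem_GG q N)

@[simp] theorem coe_toGG (N : ℕ) (g : ↥(G0 (lvl ↥(IH1.ZInv q) N))) :
    ((toGG q N g : ↥(IH1.GG N q)) : SL(2, ℚ)) =
      toQ q (g : Matrix.SpecialLinearGroup (Fin 2) ↥(IH1.ZInv q)) := rfl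

theorem toGG_castG0 (N : ℕ) (γ : ↥(Gamma0 N)) :
    toGG q N (castG0 ↥(IH1.ZInv q) N γ) = ⟨IH1.castΓ N γ, IH1.castΓ_mem_GG N q γ⟩ := by
  apply Subtype.ext
  apply Matrix.SpecialLinearGroup.ext
  intro i j
  rw [coe_toGG, toQ_apply, coe_castG0, mapZ_apply, coe_algebraMap_ZInv]
  rfl

theorem coe_qinv [IsLocalization.Away (q : ℤ) ↥(IH1.ZInv q)] :
    ((qinv q ↥(IH1.ZInv q) : ↥(IH1.ZInv q)) : ℚ) = (q : ℚ)⁻¹ := by
  have h := congrArg (fun s : ↥(IH1.ZInv q) => (s : ℚ)) (q_mul_qinv q ↥(IH1.ZInv q))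
  simp only [Subring.coe_mul, Subring.coe_one] at h
  have h' : (q : ℚ) * ((qinv q ↥(IH1.ZInv q) : ↥(IH1.ZInv q)) : ℚ) = 1 := by
    rw [← h]
    push_cast
    rfl
  exact eq_inv_of_mul_eq_one_right h'

theorem toGG_conjG0 [NeZero q] [IsLocalization.Away (q : ℤ) ↥(IH1.ZInv q)] (N : ℕ) (γ : ↥(Gamma0 N)) :
    toGG q N (conjG0 q ↥(IH1.ZInv q) N γ) = ⟨IH1.conjΓ N q γ, IH1.conjΓ_mem_GG N q γ⟩ := by
  apply Subtype.ext
  apply IH1.sl_ext
  · rw [coe_toGG, toQ_apply, coe_conjG0, conjSL_00, coe_algebraMap_ZInv]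
    rfl
  · rw [coe_toGG, toQ_apply, coe_conjG0, conjSL_01, Subring.coe_mul, coe_algebraMap_ZInv,
      coe_qinv]
    show _ = IH1.castΓ N γ 0 1 / (q : ℚ)
    rw [IH1.castΓ_apply, div_eq_mul_inv]
  · rw [coe_toGG, toQ_apply, coe_conjG0, conjSL_10, Subring.coe_mul, coe_algebraMap_ZInv]
    show _ = (q : ℚ) * IH1.castΓ N γ 1 0
    rw [IH1.castΓ_apply]
    push_cast
    rfl
  · rw [coe_toGG, toQ_apply, coe_conjG0, conjSL_11, coe_algebraMap_ZInv]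
    rfl

end ZInv

/-! ### Ihara's lemma -/

section Ihara

variable (N q p : ℕ) [NeZero N] [Fact q.Prime] [Fact p.Prime]

/-- [IH1] in the shape of `IH1.exists_extension` -/
def ExtStatement : Prop :=
  ∀ φ₁ φ₂ : Additive ↥(Gamma0 N) →+ ZMod p,
    (∀ δ : ↥(Gamma0 (N * q)), φ₁ (Additive.ofMul (IH1.incl N q δ)) +
      φ₂ (Additive.ofMul (IH1.conjEta N q δ)) = 0) →
    ∃ φ : Additive ↥(IH1.GG N q) →+ ZMod p,
      (∀ γ, φ (Additive.ofMul ⟨IH1.castΓ N γ, IH1.castΓ_mem_GG N q γ⟩) =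
        φ₁ (Additive.ofMul γ)) ∧
      (∀ γ, φ (Additive.ofMul ⟨IH1.conjΓ N q γ, IH1.conjΓ_mem_GG N q γ⟩) =
        - φ₂ (Additive.ofMul γ))

variable {N q p}

/-- **Ihara's lemma** (`q ∤ N`, `p ≠ q` odd): a pair `(φ₁, φ₂)` of homomorphisms
`Γ₀(N) → ZMod p`, `φ₁` parabolic, with `φ₁ ∘ incl + φ₂ ∘ conjEta = 0` on `Γ₀(Nq)`, vanishes on
`Γ₀(N) ∩ Γ(N)`. -/
theorem ihara (hqN : ¬ q ∣ N) (hpq : p ≠ q) (hp2 : p ≠ 2)
    (hExt : ExtStatement N q p) (hL : LStatement.{0} N p)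
    (φ₁ φ₂ : Additive ↥(Gamma0 N) →+ ZMod p) (hpar : φ₁ ∈ parHomAdd N (ZMod p))
    (h : ∀ δ : ↥(Gamma0 (N * q)), φ₁ (Additive.ofMul (IH1.incl N q δ)) +
      φ₂ (Additive.ofMul (IH1.conjEta N q δ)) = 0)
    (g : ↥(Gamma0 N)) (hg : (g : SL(2, ℤ)) ∈ Gamma N) :
    φ₁ (Additive.ofMul g) = 0 ∧ φ₂ (Additive.ofMul g) = 0 := by
  have hq : q.Prime := Fact.out
  have hloc := isLocalization_ZInv q hq.ne_zero
  have hcop : Nat.Coprime q N := (Nat.Prime.coprime_iff_not_dvd hq).mpr hqN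
  obtain ⟨φ, hφ₁, hφ₂⟩ := hExt φ₁ φ₂ h
  have hp : p.Prime := Fact.out
  refine vanish_of_extension (A := ↥(IH1.ZInv q)) q p hq hpq hcop
    (fun γ x hx => commutator_mem_Elem q hq N (Nat.pos_of_ne_zero (NeZero.ne N)) hcop γ x hx)
    (ElemGen.closure_e12_e21_eq_top q)
    (fStatement_of_lStatement hp hp2 hL)
    (φ.comp (toGG q N).toAdditive) φ₁ φ₂ ?_ ?_ hpar g hg
  · intro γ
    show φ (Additive.ofMul (toGG q N (castG0 ↥(IH1.ZInv q) N γ))) = _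
    rw [toGG_castG0]
    exact hφ₁ γ
  · intro γ
    show φ (Additive.ofMul (toGG q N (conjG0 q ↥(IH1.ZInv q) N γ))) = _
    rw [toGG_conjG0]
    exact hφ₂ γ

end Ihara

end Fermat.Agent.S41.IH
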