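/-
S41, block [IH], final form: Ihara's lemma in the language of the degeneracy maps
`resAdd`, `resEtaAdd` of `P3LR/A/DegeneracyDefs.lean`.  The only open input is the finite
group statement `LStatement N p` ([IH2-F]).
-/
import Mathlib
import Fermat.Agent.S41.IH.Glue
import Fermat.Agent.S41.IH1.Extension
import Fermat.Agent.P3LR.A.DegeneracyDefs

set_option autoImplicit false

open scoped MatrixGroups

namespace Fermat.Agent.S41.IH

open Matrix CongruenceSubgroup
open Fermat.Agent.N4F.Tors.HeckeHom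

section Final

variable {N q p : ℕ} [Fact q.Prime] [Fact p.Prime]

/-- [IH1] is available. -/
theorem extStatement (hqN : ¬ q ∣ N) : ExtStatement N q p :=
  fun φ₁ φ₂ h => IH1.exists_extension hqN φ₁ φ₂ h

omit [Fact q.Prime] in
/-- the two `incl` agree -/
theorem incl_eq (δ : ↥(Gamma0 (N * q))) :
    Fermat.Agent.P3LR.A.Degeneracy.incl N q δ = IH1.incl N q δ := rfl

/-- the two `conjEta` agree -/
theorem conjEta_eq (δ : ↥(Gamma0 (N * q))) :
    Fermat.Agent.P3LR.A.Degeneracy.conjEta N q δ = IH1.conjEta N q δ := by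
  obtain ⟨h00, h01, h10, h11⟩ := Fermat.Agent.P3LR.A.Degeneracy.conjEta_entries N q δ
  have hq : (q : ℤ) ≠ 0 := by exact_mod_cast (NeZero.ne q)
  apply Subtype.ext
  apply IH1.sl_ext
  · rw [h00, IH1.coe_conjEta, IH1.conjEtaSL_00]
  · rw [h01, IH1.coe_conjEta, IH1.conjEtaSL_01]
  · apply mul_left_cancel₀ hq
    rw [← h10, IH1.coe_conjEta, IH1.q_mul_conjEtaSL_10]
  · rw [h11, IH1.coe_conjEta, IH1.conjEtaSL_11]

/-- **Ihara's lemma** in the shape consumed by the level-raising assembly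
(`IharaInput N q p`, with `m := N`). -/
theorem iharaInput [NeZero N] (hqN : ¬ q ∣ N) (hpq : p ≠ q) (hp2 : p ≠ 2)
    (hL : LStatement.{0} N p)
    (x₁ x₂ : parHomAdd N (ZMod p))
    (h : Fermat.Agent.P3LR.A.Degeneracy.resAdd N q x₁.1 +
      Fermat.Agent.P3LR.A.Degeneracy.resEtaAdd N q x₂.1 = 0) :
    ∃ m : ℕ, 0 < m ∧ ∀ g : ↥(Gamma0 N), (g : SL(2, ℤ)) ∈ Gamma m →
      x₁.1 (Additive.ofMul g) = 0 ∧ x₂.1 (Additive.ofMul g) = 0 := by
  refine ⟨N, Nat.pos_of_ne_zero (NeZero.ne N), fun g hg => ?_⟩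
  refine ihara hqN hpq hp2 (extStatement hqN) hL x₁.1 x₂.1 x₁.2 ?_ g hg
  intro δ
  have h' := congrArg (fun f : Additive ↥(Gamma0 (N * q)) →+ ZMod p => f (Additive.ofMul δ)) h
  simp only [AddMonoidHom.add_apply, AddMonoidHom.zero_apply,
    Fermat.Agent.P3LR.A.Degeneracy.resAdd_apply,
    Fermat.Agent.P3LR.A.Degeneracy.resEtaAdd_apply] at h'
  rw [incl_eq, conjEta_eq] at h'
  exact h'

end Final

end Fermat.Agent.S41.IH
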