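/-
S41, block [IH], arithmetic glue, part 1.

`A` is a localisation `ℤ[1/q]` (`IsLocalization.Away (q : ℤ) A`), `G0 N ⊂ SL₂(A)` the group
`Γ₀(N)[1/q]`.  A homomorphism `φ : Γ₀(N)[1/q] → ZMod p` (`p ≠ q` prime, `q ∤ N`) which kills the
parabolic/elliptic elements of `Γ₀(N)` (integral points) kills

* (a) every element of trace `2` of `Γ₀(N)[1/q]` (`trace_two_eq_zero`);
* (b) the normal closure `Elem N` in `SL₂(A)` of the elementary matrices of level `N`
  (`Elem_le_kerSub`);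
* (c) if moreover `[SL₂(A), Γ(N)[1/q]] ⊂ Elem N` (centrality, block IH2-core), then
  `kerSub φ = {x ∈ Γ(N)[1/q] | φ x = 0}` is a NORMAL subgroup of `SL₂(A)` (`kerSub_normal`).
-/
import Mathlib
import Fermat.Agent.N4F.Tors.HeckeHom
import Fermat.Agent.S41.CSP.Basic

set_option autoImplicit false

open scoped MatrixGroups

namespace Fermat.Agent.S41.IH

open Matrix CongruenceSubgroup
open Fermat.Agent.N4F.Tors.HeckeHom Fermat.Agent.S41.CSP

/-! ### `SL₂` over a commutative ring -/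

section Basics

variable {A : Type*} [CommRing A]

/-- `Γ₀(I)`: lower left entry in `I` -/
def G0 (I : Ideal A) : Subgroup (Matrix.SpecialLinearGroup (Fin 2) A) where
  carrier := {g | g 1 0 ∈ I}
  one_mem' := by simp
  mul_mem' := by
    intro a b ha hb
    change a 1 0 ∈ I at ha
    change b 1 0 ∈ I at hb
    change (a * b) 1 0 ∈ I
    rw [Matrix.SpecialLinearGroup.coe_mul, Matrix.mul_apply, Fin.sum_univ_two]
    exact I.add_mem (I.mul_mem_right _ ha) (I.mul_mem_left _ hb)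
  inv_mem' := by
    intro a ha
    change a 1 0 ∈ I at ha
    change (a⁻¹) 1 0 ∈ I
    rw [Matrix.SpecialLinearGroup.coe_inv, Matrix.adjugate_fin_two]
    simpa using I.neg_mem ha

theorem mem_G0 {I : Ideal A} {g : Matrix.SpecialLinearGroup (Fin 2) A} :
    g ∈ G0 I ↔ g 1 0 ∈ I := Iff.rfl

theorem Gam_le_G0 (I : Ideal A) : Gam I ≤ G0 I := fun _ hg => (mem_Gam_iff.mp hg).2.2.1

/-- trace of an element of `SL₂` -/
def tr (g : Matrix.SpecialLinearGroup (Fin 2) A) : A := g 0 0 + g 1 1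

theorem tr_conj (g h : Matrix.SpecialLinearGroup (Fin 2) A) : tr (g * h * g⁻¹) = tr h := by
  have h1 : (Matrix.trace ((g * h * g⁻¹ : Matrix.SpecialLinearGroup (Fin 2) A) :
      Matrix (Fin 2) (Fin 2) A)) = Matrix.trace (h : Matrix (Fin 2) (Fin 2) A) := by
    rw [Matrix.SpecialLinearGroup.coe_mul, Matrix.SpecialLinearGroup.coe_mul, Matrix.trace_mul_cycle,
      ← Matrix.SpecialLinearGroup.coe_mul, inv_mul_cancel, Matrix.SpecialLinearGroup.coe_one,
      Matrix.one_mul]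
  rw [Matrix.trace_fin_two, Matrix.trace_fin_two] at h1
  exact h1

theorem tr_e12 (x : A) : tr (e12 x) = 2 := by
  simp only [tr, e12_00, e12_11]; norm_num

/-- Cayley–Hamilton for trace `2`: `(u - 1) * u = u - 1`. -/
theorem sub_one_mul_self {u : Matrix.SpecialLinearGroup (Fin 2) A} (hu : tr u = 2) :
    ((u : Matrix (Fin 2) (Fin 2) A) - 1) * (u : Matrix (Fin 2) (Fin 2) A) =
      (u : Matrix (Fin 2) (Fin 2) A) - 1 := by
  have hdet : u 0 0 * u 1 1 - u 0 1 * u 1 0 = 1 := by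
    have := u.det_coe
    rwa [Matrix.det_fin_two] at this
  have htr : u 0 0 + u 1 1 = 2 := hu
  ext i j
  rw [Matrix.mul_apply, Fin.sum_univ_two]
  fin_cases i <;> fin_cases j
  · simp only [Fin.zero_eta, Fin.isValue, Matrix.sub_apply, Matrix.one_apply_eq, ne_eq,
      zero_ne_one, not_false_eq_true, Matrix.one_apply_ne, sub_zero]
    linear_combination (u 0 0) * htr - hdet
  · simp only [Fin.zero_eta, Fin.isValue, Matrix.sub_apply, Matrix.one_apply_eq, Fin.mk_one, ne_eq,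
      zero_ne_one, not_false_eq_true, Matrix.one_apply_ne, sub_zero]
    linear_combination (u 0 1) * htr
  · simp only [Fin.mk_one, Fin.isValue, Fin.zero_eta, Matrix.sub_apply, ne_eq, one_ne_zero,
      not_false_eq_true, Matrix.one_apply_ne, sub_zero, Matrix.one_apply_eq]
    linear_combination (u 1 0) * htr
  · simp only [Fin.mk_one, Fin.isValue, Matrix.sub_apply, ne_eq, one_ne_zero, not_false_eq_true,
      Matrix.one_apply_ne, sub_zero, Matrix.one_apply_eq]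
    linear_combination (u 1 1) * htr - hdet

/-- powers of an element of trace `2`: `u ^ k = 1 + k • (u - 1)`. -/
theorem coe_pow_of_tr_two {u : Matrix.SpecialLinearGroup (Fin 2) A} (hu : tr u = 2) (k : ℕ) :
    ((u ^ k : Matrix.SpecialLinearGroup (Fin 2) A) : Matrix (Fin 2) (Fin 2) A) =
      1 + (k : A) • ((u : Matrix (Fin 2) (Fin 2) A) - 1) := by
  induction k with
  | zero => simp
  | succ k ih =>
    rw [pow_succ, Matrix.SpecialLinearGroup.coe_mul, ih, Matrix.add_mul, Matrix.one_mul,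
      Matrix.smul_mul, sub_one_mul_self hu]
    push_cast
    rw [add_smul, one_smul]
    abel

end Basics

/-! ### The localisation `A = ℤ[1/q]` -/

section Away

variable (q : ℕ) {A : Type*} [CommRing A] [Algebra ℤ A] [IsLocalization.Away (q : ℤ) A]

theorem algebraMap_int_injective (hq : q ≠ 0) : Function.Injective (algebraMap ℤ A) := by
  refine IsLocalization.injective A (M := Submonoid.powers (q : ℤ)) ?_
  refine Submonoid.powers_le.mpr ?_
  exact mem_nonZeroDivisors_of_ne_zero (by exact_mod_cast hq)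

/-- a common denominator `q ^ m` for the entries of a `2 × 2` matrix over `ℤ[1/q]` -/
theorem exists_pow_smul_eq_map (M : Matrix (Fin 2) (Fin 2) A) :
    ∃ (m : ℕ) (Z : Matrix (Fin 2) (Fin 2) ℤ), ((q : A) ^ m) • M = Z.map (algebraMap ℤ A) := by
  classical
  obtain ⟨b, hb⟩ := IsLocalization.exist_integer_multiples_of_finset (Submonoid.powers (q : ℤ))
    (Finset.univ.image (fun ij : Fin 2 × Fin 2 => M ij.1 ij.2))
  obtain ⟨m, hm⟩ := b.2
  have hb' : ∀ i j, ∃ z : ℤ, algebraMap ℤ A z = ((q : A) ^ m) * M i j := by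
    intro i j
    obtain ⟨z, hz⟩ := hb (M i j) (Finset.mem_image.mpr ⟨(i, j), Finset.mem_univ _, rfl⟩)
    refine ⟨z, ?_⟩
    rw [hz, ← hm, Algebra.smul_def]
    simp
  choose Z hZ using hb'
  refine ⟨m, Matrix.of Z, ?_⟩
  ext i j
  simp [hZ]

/-- integers divisible by `N` in `ℤ[1/q]` are divisible by `N` in `ℤ` (`q` prime to `N`) -/
theorem dvd_of_algebraMap_mem_span {N : ℕ} (hq : q ≠ 0) (hqN : Nat.Coprime q N) {z : ℤ}
    (hz : algebraMap ℤ A z ∈ Ideal.span {(N : A)}) : (N : ℤ) ∣ z := by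
  obtain ⟨a, ha⟩ := Ideal.mem_span_singleton'.mp hz
  obtain ⟨⟨w, s⟩, hws⟩ := IsLocalization.surj (Submonoid.powers (q : ℤ)) a
  obtain ⟨k, hk⟩ := s.2
  simp only at hws
  have h1 : algebraMap ℤ A (z * (q : ℤ) ^ k) = algebraMap ℤ A (w * N) := by
    rw [map_mul, map_mul, ← ha, ← hws, ← hk]
    simp only [map_pow, map_natCast]
    ring
  have h2 := algebraMap_int_injective (A := A) q hq h1
  have h3 : (N : ℤ) ∣ z * (q : ℤ) ^ k := ⟨w, by rw [h2]; ring⟩
  have hcop : IsCoprime (N : ℤ) ((q : ℤ) ^ k) := by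
    apply IsCoprime.pow_right
    exact_mod_cast (Nat.isCoprime_iff_coprime.mpr hqN.symm)
  exact hcop.dvd_of_dvd_mul_right h3

end Away

/-! ### (a): homomorphisms killing the parabolic elements of `Γ₀(N)` kill all unipotents -/

section Main

variable {A : Type*} [CommRing A] [Algebra ℤ A]

/-- the level ideal `N·A` -/
def lvl (A : Type*) [CommRing A] (N : ℕ) : Ideal A := Ideal.span {(N : A)}

/-- integral points `SL₂(ℤ) → SL₂(A)` -/
def mapZ (A : Type*) [CommRing A] [Algebra ℤ A] :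
    SL(2, ℤ) →* Matrix.SpecialLinearGroup (Fin 2) A :=
  Matrix.SpecialLinearGroup.map (algebraMap ℤ A)

theorem mapZ_apply (γ : SL(2, ℤ)) (i j : Fin 2) : mapZ A γ i j = algebraMap ℤ A (γ i j) := rfl

theorem mapZ_mem_G0 (N : ℕ) (γ : ↥(Gamma0 N)) : mapZ A (γ : SL(2, ℤ)) ∈ G0 (lvl A N) := by
  rw [mem_G0, mapZ_apply]
  have h : (N : ℤ) ∣ (γ : SL(2, ℤ)) 1 0 :=
    (ZMod.intCast_zmod_eq_zero_iff_dvd _ _).mp (Gamma0_mem.mp γ.2)
  obtain ⟨c, hc⟩ := h
  rw [hc, map_mul]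
  refine Ideal.mul_mem_right _ _ (Ideal.subset_span ?_)
  simp

/-- `Γ₀(N) → Γ₀(N)[1/q]` -/
def castG0 (A : Type*) [CommRing A] [Algebra ℤ A] (N : ℕ) : ↥(Gamma0 N) →* ↥(G0 (lvl A N)) where
  toFun γ := ⟨mapZ A (γ : SL(2, ℤ)), mapZ_mem_G0 N γ⟩
  map_one' := by apply Subtype.ext; simp
  map_mul' a b := by apply Subtype.ext; simp

@[simp] theorem coe_castG0 (N : ℕ) (γ : ↥(Gamma0 N)) :
    ((castG0 A N γ : ↥(G0 (lvl A N))) : Matrix.SpecialLinearGroup (Fin 2) A) =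
      mapZ A (γ : SL(2, ℤ)) := rfl

variable (q : ℕ) [IsLocalization.Away (q : ℤ) A]

/-- **(a)** every element of trace `2` of `Γ₀(N)[1/q]` has a `q`-power-th power in `Γ₀(N)`,
which is parabolic. -/
theorem exists_pow_eq_castG0 (hq : q ≠ 0) {N : ℕ} (hqN : Nat.Coprime q N)
    (u : ↥(G0 (lvl A N))) (hu : tr (u : Matrix.SpecialLinearGroup (Fin 2) A) = 2) :
    ∃ (m : ℕ) (γ : ↥(Gamma0 N)), IsParEll (γ : SL(2, ℤ)) ∧ u ^ (q ^ m) = castG0 A N γ := by
  obtain ⟨m, Z, hZ⟩ := exists_pow_smul_eq_map q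
    (((u : Matrix.SpecialLinearGroup (Fin 2) A) : Matrix (Fin 2) (Fin 2) A) - 1)
  have hinj := algebraMap_int_injective (A := A) q hq
  -- the integral matrix
  have hmap : ((1 + Z : Matrix (Fin 2) (Fin 2) ℤ)).map (algebraMap ℤ A) =
      (((u : Matrix.SpecialLinearGroup (Fin 2) A) ^ (q ^ m) :
        Matrix.SpecialLinearGroup (Fin 2) A) : Matrix (Fin 2) (Fin 2) A) := by
    rw [coe_pow_of_tr_two hu, Matrix.map_add _ (by intros; simp), ← hZ]
    congr 1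
    · ext i j
      simp [Matrix.one_apply]
    · push_cast
      rfl
  have hdet : (1 + Z : Matrix (Fin 2) (Fin 2) ℤ).det = 1 := by
    apply hinj
    have h1 := RingHom.map_det (algebraMap ℤ A) (1 + Z : Matrix (Fin 2) (Fin 2) ℤ)
    rw [h1, RingHom.mapMatrix_apply, hmap, Matrix.SpecialLinearGroup.det_coe, map_one]
  let γ₀ : SL(2, ℤ) := ⟨1 + Z, hdet⟩
  have hγ₀ : mapZ A γ₀ = (u : Matrix.SpecialLinearGroup (Fin 2) A) ^ (q ^ m) := by
    apply Subtype.ext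
    exact hmap
  have hmem : γ₀ ∈ Gamma0 N := by
    rw [Gamma0_mem, ZMod.intCast_zmod_eq_zero_iff_dvd]
    refine dvd_of_algebraMap_mem_span (A := A) q hq hqN ?_
    have h1 : (mapZ A γ₀) 1 0 ∈ lvl A N := by
      rw [hγ₀]
      exact ((u ^ (q ^ m) : ↥(G0 (lvl A N)))).2
    exact h1
  refine ⟨m, ⟨γ₀, hmem⟩, ?_, ?_⟩
  · left
    have htr : ((γ₀ : Matrix (Fin 2) (Fin 2) ℤ)).trace = 2 := by
      apply hinj
      have h00 : algebraMap ℤ A (γ₀ 0 0) = (mapZ A γ₀) 0 0 := rfl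
      have h11 : algebraMap ℤ A (γ₀ 1 1) = (mapZ A γ₀) 1 1 := rfl
      rw [Matrix.trace_fin_two, map_add, h00, h11, hγ₀, coe_pow_of_tr_two hu]
      have hu' : (u : Matrix.SpecialLinearGroup (Fin 2) A) 0 0 +
          (u : Matrix.SpecialLinearGroup (Fin 2) A) 1 1 = 2 := hu
      simp only [Matrix.add_apply, Matrix.one_apply_eq, Matrix.smul_apply, Matrix.sub_apply,
        smul_eq_mul, map_ofNat]
      linear_combination ((q ^ m : ℕ) : A) * hu'
    show ((γ₀ : Matrix (Fin 2) (Fin 2) ℤ)).trace ^ 2 = 4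
    rw [htr]; norm_num
  · apply Subtype.ext
    rw [coe_castG0]
    show (u : Matrix.SpecialLinearGroup (Fin 2) A) ^ (q ^ m) = mapZ A γ₀
    exact hγ₀.symm

variable (p : ℕ) [Fact p.Prime]

/-- **(a)** a homomorphism `Γ₀(N)[1/q] → ZMod p` (`p ≠ q`) which kills the parabolic and elliptic
elements of `Γ₀(N)` kills every element of trace `2`. -/
theorem trace_two_eq_zero (hq : q.Prime) (hpq : p ≠ q) {N : ℕ} (hqN : Nat.Coprime q N)
    (φ : Additive ↥(G0 (lvl A N)) →+ ZMod p)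
    (hφ : ∀ γ : ↥(Gamma0 N), IsParEll (γ : SL(2, ℤ)) → φ (Additive.ofMul (castG0 A N γ)) = 0)
    (u : ↥(G0 (lvl A N))) (hu : tr (u : Matrix.SpecialLinearGroup (Fin 2) A) = 2) :
    φ (Additive.ofMul u) = 0 := by
  obtain ⟨m, γ, hγ, hum⟩ := exists_pow_eq_castG0 q hq.ne_zero hqN u hu
  have h1 : (q ^ m) • φ (Additive.ofMul u) = 0 := by
    rw [← map_nsmul, ← ofMul_pow, hum]
    exact hφ γ hγ
  rw [nsmul_eq_mul] at h1
  rcases mul_eq_zero.mp h1 with h2 | h2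
  · exfalso
    have hp : p.Prime := Fact.out
    have h3 : ((q ^ m : ℕ) : ZMod p) = 0 := h2
    rw [ZMod.natCast_eq_zero_iff] at h3
    have h4 := hp.dvd_of_dvd_pow h3
    exact hpq ((Nat.prime_dvd_prime_iff_eq hp hq).mp h4)
  · exact h2

end Main

/-! ### (b), (c): the kernel subgroup -/

section KerSub

variable {A : Type*} [CommRing A] {k : Type*} [AddCommGroup k]

/-- `{x ∈ Γ(I) | φ x = 0}` as a subgroup of `SL₂(A)`, for `φ : Γ₀(I) → k` -/
def kerSub {I : Ideal A} (φ : Additive ↥(G0 I) →+ k) :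
    Subgroup (Matrix.SpecialLinearGroup (Fin 2) A) where
  carrier := {x | ∃ hx : x ∈ Gam I, φ (Additive.ofMul ⟨x, Gam_le_G0 I hx⟩) = 0}
  one_mem' := ⟨one_mem _, by
    have : (⟨1, Gam_le_G0 I (one_mem _)⟩ : ↥(G0 I)) = 1 := rfl
    rw [this, ofMul_one, map_zero]⟩
  mul_mem' := by
    rintro a b ⟨ha, ha'⟩ ⟨hb, hb'⟩
    refine ⟨mul_mem ha hb, ?_⟩
    have : (⟨a * b, Gam_le_G0 I (mul_mem ha hb)⟩ : ↥(G0 I)) =
        ⟨a, Gam_le_G0 I ha⟩ * ⟨b, Gam_le_G0 I hb⟩ := rfl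
    rw [this, ofMul_mul, map_add, ha', hb', add_zero]
  inv_mem' := by
    rintro a ⟨ha, ha'⟩
    refine ⟨inv_mem ha, ?_⟩
    have : (⟨a⁻¹, Gam_le_G0 I (inv_mem ha)⟩ : ↥(G0 I)) = (⟨a, Gam_le_G0 I ha⟩ : ↥(G0 I))⁻¹ := rfl
    rw [this, ofMul_inv, map_neg, ha', neg_zero]

theorem mem_kerSub {I : Ideal A} {φ : Additive ↥(G0 I) →+ k}
    {x : Matrix.SpecialLinearGroup (Fin 2) A} :
    x ∈ kerSub φ ↔ ∃ hx : x ∈ Gam I, φ (Additive.ofMul ⟨x, Gam_le_G0 I hx⟩) = 0 := Iff.rfl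

theorem kerSub_le_Gam {I : Ideal A} (φ : Additive ↥(G0 I) →+ k) : kerSub φ ≤ Gam I :=
  fun _ hx => hx.1

/-- **(b)** if `φ` kills the elements of trace `2`, it kills `Elem I`. -/
theorem Elem_le_kerSub {I : Ideal A} (φ : Additive ↥(G0 I) →+ k)
    (hφ : ∀ u : ↥(G0 I), tr (u : Matrix.SpecialLinearGroup (Fin 2) A) = 2 →
      φ (Additive.ofMul u) = 0) : Elem I ≤ kerSub φ := by
  unfold Elem Subgroup.normalClosure
  rw [Subgroup.closure_le]
  intro c hc
  obtain ⟨b, ⟨x, hx, rfl⟩, hconj⟩ := Group.mem_conjugatesOfSet_iff.mp hc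
  obtain ⟨g, rfl⟩ := isConj_iff.mp hconj
  have hmem : g * e12 x * g⁻¹ ∈ Gam I :=
    (inferInstance : (Gam I).Normal).conj_mem _ (e12_mem_Gam hx) g
  refine ⟨hmem, hφ _ ?_⟩
  show tr (g * e12 x * g⁻¹) = 2
  rw [tr_conj, tr_e12]

/-- **(c)** centrality makes `kerSub φ` a normal subgroup of `SL₂(A)`. -/
theorem kerSub_normal {I : Ideal A} (φ : Additive ↥(G0 I) →+ k)
    (hE : Elem I ≤ kerSub φ)
    (hcore : ∀ γ x : Matrix.SpecialLinearGroup (Fin 2) A, x ∈ Gam I →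
      γ * x * γ⁻¹ * x⁻¹ ∈ Elem I) : (kerSub φ).Normal := by
  refine ⟨fun n hn g => ?_⟩
  have h1 : g * n * g⁻¹ = (g * n * g⁻¹ * n⁻¹) * n := by group
  rw [h1]
  exact mul_mem (hE (hcore g n (kerSub_le_Gam φ hn))) hn

/-- **(c)** `φ` is invariant under conjugation by `SL₂(A)` on `Γ(I)`. -/
theorem phi_conj_eq {I : Ideal A} (φ : Additive ↥(G0 I) →+ k)
    (hE : Elem I ≤ kerSub φ)
    (hcore : ∀ γ x : Matrix.SpecialLinearGroup (Fin 2) A, x ∈ Gam I →
      γ * x * γ⁻¹ * x⁻¹ ∈ Elem I)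
    (γ x : Matrix.SpecialLinearGroup (Fin 2) A) (hx : x ∈ Gam I) :
    φ (Additive.ofMul ⟨γ * x * γ⁻¹,
        Gam_le_G0 I ((inferInstance : (Gam I).Normal).conj_mem _ hx γ)⟩) =
      φ (Additive.ofMul ⟨x, Gam_le_G0 I hx⟩) := by
  obtain ⟨h1, h2⟩ := hE (hcore γ x hx)
  have h3 : (⟨γ * x * γ⁻¹, Gam_le_G0 I ((inferInstance : (Gam I).Normal).conj_mem _ hx γ)⟩ :
      ↥(G0 I)) = ⟨γ * x * γ⁻¹ * x⁻¹, Gam_le_G0 I h1⟩ * ⟨x, Gam_le_G0 I hx⟩ := by
    apply Subtype.ext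
    show γ * x * γ⁻¹ = γ * x * γ⁻¹ * x⁻¹ * x
    group
  rw [h3, ofMul_mul, map_add, h2, zero_add]

end KerSub

end Fermat.Agent.S41.IH
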