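/-
S41, block [IH], arithmetic glue, part 2: reduction `SL₂(ℤ[1/q]) → SL₂(ℤ/N)` (`q` prime to `N`).

* `redHom q N hqN : A →+* ZMod N`, kernel `lvl A N = N·A` (`redHom_eq_zero_iff`);
* `red q N hqN : SL₂(A) →* SL₂(ZMod N)`, kernel `Gam (lvl A N)` (`red_eq_one_iff`), surjective
  (`red_surjective`, by lifting the first column to `SL₂(ℤ)`).
-/
import Mathlib
import Fermat.Agent.M2.P1Action
import Fermat.Agent.S41.IH.Unipotent

set_option autoImplicit false

open scoped MatrixGroups

namespace Fermat.Agent.S41.IH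

open Matrix CongruenceSubgroup
open Fermat.Agent.S41.CSP

section Red

variable (q : ℕ) {A : Type*} [CommRing A] [Algebra ℤ A] [IsLocalization.Away (q : ℤ) A]
variable (N : ℕ)

/-- reduction mod `N` on `ℤ[1/q]`, `q` prime to `N` -/
noncomputable def redHom (hqN : Nat.Coprime q N) : A →+* ZMod N :=
  IsLocalization.Away.lift (q : ℤ) (g := Int.castRingHom (ZMod N))
    (by
      rw [eq_intCast, Int.cast_natCast]
      exact (ZMod.isUnit_iff_coprime q N).mpr hqN)

theorem redHom_algebraMap (hqN : Nat.Coprime q N) (z : ℤ) :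
    redHom (A := A) q N hqN (algebraMap ℤ A z) = (z : ZMod N) := by
  unfold redHom
  rw [IsLocalization.Away.lift_eq]
  simp

theorem redHom_eq_zero_iff (hqN : Nat.Coprime q N) (a : A) :
    redHom q N hqN a = 0 ↔ a ∈ lvl A N := by
  constructor
  · intro h
    obtain ⟨⟨w, s⟩, hws⟩ := IsLocalization.surj (Submonoid.powers (q : ℤ)) a
    obtain ⟨k, hk⟩ := s.2
    simp only at hws
    -- `w` is divisible by `N`
    have h1 : ((w : ℤ) : ZMod N) = 0 := by
      rw [← redHom_algebraMap (A := A) q N hqN, ← hws, map_mul, h, zero_mul]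
    obtain ⟨w', rfl⟩ := (ZMod.intCast_zmod_eq_zero_iff_dvd _ _).mp h1
    -- `s` is a unit of `A`
    have hu : IsUnit (algebraMap ℤ A (s : ℤ)) := IsLocalization.map_units A s
    obtain ⟨u, hu'⟩ := hu
    have h2 : a = (N : A) * (algebraMap ℤ A w' * ((u⁻¹ : Aˣ) : A)) := by
      have h3 : a * (u : A) = (N : A) * algebraMap ℤ A w' := by
        rw [hu', hws, map_mul]
        simp
      calc a = a * (u : A) * ((u⁻¹ : Aˣ) : A) := by rw [mul_assoc, Units.mul_inv, mul_one]
        _ = (N : A) * (algebraMap ℤ A w' * ((u⁻¹ : Aˣ) : A)) := by rw [h3, mul_assoc]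
    rw [h2]
    exact Ideal.mul_mem_right _ _ (Ideal.subset_span (by simp))
  · intro h
    obtain ⟨b, rfl⟩ := Ideal.mem_span_singleton'.mp h
    rw [map_mul, map_natCast, ZMod.natCast_self, mul_zero]

/-- reduction `SL₂(ℤ[1/q]) → SL₂(ℤ/N)` -/
noncomputable def red (hqN : Nat.Coprime q N) :
    Matrix.SpecialLinearGroup (Fin 2) A →* Matrix.SpecialLinearGroup (Fin 2) (ZMod N) :=
  Matrix.SpecialLinearGroup.map (redHom q N hqN)

theorem red_apply (hqN : Nat.Coprime q N) (g : Matrix.SpecialLinearGroup (Fin 2) A) (i j : Fin 2) :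
    (red q N hqN g) i j = redHom q N hqN (g i j) := rfl

theorem red_eq_one_iff (hqN : Nat.Coprime q N)
    (g : Matrix.SpecialLinearGroup (Fin 2) A) :
    red q N hqN g = 1 ↔ g ∈ Gam (lvl A N) := by
  rw [mem_Gam_iff]
  simp only [← redHom_eq_zero_iff q N hqN, map_sub, map_one, sub_eq_zero]
  constructor
  · intro h
    refine ⟨?_, ?_, ?_, ?_⟩
    · rw [← red_apply, h]; simp
    · rw [← red_apply, h]; simp
    · rw [← red_apply, h]; simp
    · rw [← red_apply, h]; simp
  · rintro ⟨h00, h01, h10, h11⟩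
    apply SL2.ext4
    · rw [red_apply, h00]; simp
    · rw [red_apply, h01]; simp
    · rw [red_apply, h10]; simp
    · rw [red_apply, h11]; simp

theorem red_mapZ (hqN : Nat.Coprime q N) (γ : SL(2, ℤ)) (i j : Fin 2) :
    (red q N hqN (mapZ A γ)) i j = ((γ i j : ℤ) : ZMod N) := by
  rw [red_apply, mapZ_apply, redHom_algebraMap]

theorem red_e12 (hqN : Nat.Coprime q N) (a : A) :
    red q N hqN (e12 a) = e12 (redHom q N hqN a) := by
  apply SL2.ext4 <;> simp [red_apply]

theorem red_e21 (hqN : Nat.Coprime q N) (a : A) :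
    red q N hqN (e21 a) = e21 (redHom q N hqN a) := by
  apply SL2.ext4 <;> simp [red_apply]

/-- `SL₂(ℤ[1/q]) → SL₂(ℤ/N)` is onto. -/
theorem red_surjective (hqN : Nat.Coprime q N) : Function.Surjective (red (A := A) q N hqN) := by
  intro g
  have hdet := SL2.det_eq g
  obtain ⟨γ, h00, h10⟩ := Fermat.Agent.M2.P1.exists_SL_col N (g 0 0) (g 1 0)
    ⟨g 1 1, - g 0 1, by linear_combination hdet⟩
  -- `(red γ)⁻¹ * g` is upper unipotent
  set h := (red q N hqN (mapZ A γ))⁻¹ * g with hh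
  have e00 : (red q N hqN (mapZ A γ)) 0 0 = g 0 0 := by rw [red_mapZ, h00]
  have e10 : (red q N hqN (mapZ A γ)) 1 0 = g 1 0 := by rw [red_mapZ, h10]
  have hdetγ := SL2.det_eq (red q N hqN (mapZ A γ))
  have k00 : h 0 0 = 1 := by
    rw [hh]; simp only [SL2.mul_00, SL2.inv_00, SL2.inv_01]
    rw [← e00, ← e10]; linear_combination hdetγ
  have k10 : h 1 0 = 0 := by
    rw [hh]; simp only [SL2.mul_10, SL2.inv_10, SL2.inv_11]
    rw [← e00, ← e10]; ring
  have hdeth := SL2.det_eq h
  have k11 : h 1 1 = 1 := by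
    rw [k00, k10] at hdeth; simpa using hdeth
  -- lift the upper right entry
  obtain ⟨t, ht⟩ := ZMod.intCast_surjective (h 0 1)
  refine ⟨mapZ A γ * e12 (algebraMap ℤ A t), ?_⟩
  rw [map_mul, red_e12, redHom_algebraMap, ht]
  have : h = e12 (h 0 1) := by
    apply SL2.ext4 <;> simp [k00, k10, k11]
  rw [← this, hh, mul_inv_cancel_left]

end Red

end Fermat.Agent.S41.IH
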