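/-
S41, block [IH], arithmetic glue, part 3: the central extension `D = SL₂(ℤ[1/q]) ⧸ K → SL₂(ℤ/N)`
as a `LiftCore N p D` (helper17's abstract interface `S41/CSP/LiftData.lean`).

`K` is a normal subgroup of `SL₂(A)`, `Elem (N) ≤ K ≤ Γ(N)[1/q]`, with `[SL₂(A), Γ(N)] ⊂ K`,
`Γ(N)^p ⊂ K`; `SL₂(A)` is generated by elementary matrices.
-/
import Mathlib
import Fermat.Agent.S41.CSP.LiftData
import Fermat.Agent.S41.IH.Reduction

set_option autoImplicit false

open scoped MatrixGroups

namespace Fermat.Agent.S41.IH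

open Matrix CongruenceSubgroup
open Fermat.Agent.S41.CSP

section Core

variable (q : ℕ) {A : Type*} [CommRing A] [Algebra ℤ A] [IsLocalization.Away (q : ℤ) A]
variable (N : ℕ) [NeZero N]

/-- a lift of `t : ZMod N` to `A` -/
def liftZ (A : Type*) [CommRing A] {N : ℕ} (t : ZMod N) : A := ((t.val : ℕ) : A)

theorem redHom_liftZ (hqN : Nat.Coprime q N) (t : ZMod N) :
    redHom q N hqN (liftZ A t) = t := by
  unfold liftZ
  rw [map_natCast, ZMod.natCast_zmod_val]

variable {q N}
variable (K : Subgroup (Matrix.SpecialLinearGroup (Fin 2) A)) [K.Normal]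

omit [Algebra ℤ A] in
theorem e21_mem_Elem {I : Ideal A} {x : A} (hx : x ∈ I) : e21 x ∈ Elem I :=
  pr_eq_one_iff.mp (pr_e21 hx)

omit [NeZero N] [K.Normal] in
theorem mk_e12_eq (hqN : Nat.Coprime q N) (hE : Elem (lvl A N) ≤ K) {a a' : A}
    (h : redHom q N hqN a = redHom q N hqN a') :
    (QuotientGroup.mk (e12 a) : Matrix.SpecialLinearGroup (Fin 2) A ⧸ K) =
      QuotientGroup.mk (e12 a') := by
  rw [QuotientGroup.eq, ← e12_neg, ← e12_add]
  refine hE (Subgroup.subset_normalClosure ⟨-a + a', ?_, rfl⟩)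
  rw [← redHom_eq_zero_iff q N hqN, map_add, map_neg, h, neg_add_cancel]

omit [NeZero N] [K.Normal] in
theorem mk_e21_eq (hqN : Nat.Coprime q N) (hE : Elem (lvl A N) ≤ K) {a a' : A}
    (h : redHom q N hqN a = redHom q N hqN a') :
    (QuotientGroup.mk (e21 a) : Matrix.SpecialLinearGroup (Fin 2) A ⧸ K) =
      QuotientGroup.mk (e21 a') := by
  rw [QuotientGroup.eq, ← e21_neg, ← e21_add]
  refine hE (e21_mem_Elem ?_)
  rw [← redHom_eq_zero_iff q N hqN, map_add, map_neg, h, neg_add_cancel]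

omit [Algebra ℤ A] in
theorem weyl_eq : e12 (1 : A) * e21 (-1) * e12 1 = wm := by
  apply SL2.ext4 <;> simp

omit [Algebra ℤ A] in
theorem wm_pow_four : (wm : Matrix.SpecialLinearGroup (Fin 2) A) ^ 4 = 1 := by
  have h2 : (wm : Matrix.SpecialLinearGroup (Fin 2) A) * wm * (wm * wm) = 1 := by
    apply SL2.ext4 <;> simp
  rw [show (4 : ℕ) = 2 + 2 from rfl, pow_add, pow_two]
  exact h2

omit [Algebra ℤ A] in
theorem wm_conj_e12 (a : A) : wm * e12 a * wm⁻¹ = e21 (-a) := by
  rw [e21_eq_conj, neg_neg]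

/-- **The core data** for `D = SL₂(A) ⧸ K`. -/
noncomputable def liftCore (p : ℕ) (hqN : Nat.Coprime q N)
    (hKG : K ≤ Gam (lvl A N)) (hE : Elem (lvl A N) ≤ K)
    (hcent : ∀ γ x : Matrix.SpecialLinearGroup (Fin 2) A, x ∈ Gam (lvl A N) →
      γ * x * γ⁻¹ * x⁻¹ ∈ K)
    (hpow : ∀ x : Matrix.SpecialLinearGroup (Fin 2) A, x ∈ Gam (lvl A N) → x ^ p ∈ K)
    (hgen : Subgroup.closure (Set.range (e12 : A → Matrix.SpecialLinearGroup (Fin 2) A) ∪
      Set.range (e21 : A → Matrix.SpecialLinearGroup (Fin 2) A)) = ⊤) :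
    Descent.LiftCore N p (Matrix.SpecialLinearGroup (Fin 2) A ⧸ K) where
  π := QuotientGroup.lift K (red q N hqN) (fun x hx =>
    (red_eq_one_iff q N hqN x).mpr (hKG hx))
  π_surj := by
    intro g
    obtain ⟨x, rfl⟩ := red_surjective (A := A) q N hqN g
    exact ⟨QuotientGroup.mk x, rfl⟩
  central := by
    intro z hz x
    induction z using QuotientGroup.induction_on with
    | H g =>
    induction x using QuotientGroup.induction_on with
    | H γ =>
    have hg : g ∈ Gam (lvl A N) := (red_eq_one_iff q N hqN g).mp hz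
    rw [← QuotientGroup.mk_mul, ← QuotientGroup.mk_mul, QuotientGroup.eq]
    have h1 := hcent γ⁻¹ g⁻¹ (inv_mem hg)
    have h2 : (g * γ)⁻¹ * (γ * g) = γ⁻¹ * g⁻¹ * γ⁻¹⁻¹ * g⁻¹⁻¹ := by group
    rw [h2]
    exact h1
  ker_pow := by
    intro z hz
    induction z using QuotientGroup.induction_on with
    | H g =>
    have hg : g ∈ Gam (lvl A N) := (red_eq_one_iff q N hqN g).mp hz
    rw [← QuotientGroup.mk_pow, QuotientGroup.eq_one_iff]
    exact hpow g hg
  u t := QuotientGroup.mk (e12 (liftZ A t))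
  v t := QuotientGroup.mk (e21 (liftZ A t))
  u_add s t := by
    rw [← QuotientGroup.mk_mul, ← e12_add]
    refine mk_e12_eq K hqN hE ?_
    rw [map_add, redHom_liftZ, redHom_liftZ, redHom_liftZ]
  v_add s t := by
    rw [← QuotientGroup.mk_mul, ← e21_add]
    refine mk_e21_eq K hqN hE ?_
    rw [map_add, redHom_liftZ, redHom_liftZ, redHom_liftZ]
  π_u t := by
    show red q N hqN (e12 (liftZ A t)) = Descent.eU t
    rw [red_e12, redHom_liftZ]
    rfl
  π_v t := by
    show red q N hqN (e21 (liftZ A t)) = Descent.eL t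
    rw [red_e21, redHom_liftZ]
    rfl
  gen := by
    rw [eq_top_iff]
    intro d _
    induction d using QuotientGroup.induction_on with
    | H g =>
    have hle : (⊤ : Subgroup (Matrix.SpecialLinearGroup (Fin 2) A)) ≤
        (Subgroup.closure (Set.range (fun t : ZMod N =>
            (QuotientGroup.mk (e12 (liftZ A t)) : Matrix.SpecialLinearGroup (Fin 2) A ⧸ K)) ∪
          Set.range (fun t : ZMod N =>
            (QuotientGroup.mk (e21 (liftZ A t)) :
              Matrix.SpecialLinearGroup (Fin 2) A ⧸ K)))).comap (QuotientGroup.mk' K) := by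
      rw [← hgen, Subgroup.closure_le]
      rintro x (⟨a, rfl⟩ | ⟨a, rfl⟩)
      · refine Subgroup.subset_closure (Or.inl ⟨redHom q N hqN a, ?_⟩)
        exact mk_e12_eq K hqN hE (redHom_liftZ q N hqN _)
      · refine Subgroup.subset_closure (Or.inr ⟨redHom q N hqN a, ?_⟩)
        exact mk_e21_eq K hqN hE (redHom_liftZ q N hqN _)
    exact hle (Subgroup.mem_top g)
  w_conj t := by
    have h1 : (QuotientGroup.mk (e12 (liftZ A (1 : ZMod N))) :
        Matrix.SpecialLinearGroup (Fin 2) A ⧸ K) = QuotientGroup.mk (e12 1) :=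
      mk_e12_eq K hqN hE (by rw [redHom_liftZ, map_one])
    have h2 : (QuotientGroup.mk (e21 (liftZ A (-1 : ZMod N))) :
        Matrix.SpecialLinearGroup (Fin 2) A ⧸ K) = QuotientGroup.mk (e21 (-1)) :=
      mk_e21_eq K hqN hE (by rw [redHom_liftZ, map_neg, map_one])
    have h3 : (QuotientGroup.mk (e21 (liftZ A (-t))) :
        Matrix.SpecialLinearGroup (Fin 2) A ⧸ K) = QuotientGroup.mk (e21 (-(liftZ A t))) :=
      mk_e21_eq K hqN hE (by rw [redHom_liftZ, map_neg, redHom_liftZ])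
    rw [h1, h2, h3, ← QuotientGroup.mk_mul, ← QuotientGroup.mk_mul, weyl_eq,
      ← QuotientGroup.mk_mul, ← QuotientGroup.mk_inv, ← QuotientGroup.mk_mul, wm_conj_e12]
  w_pow := by
    have h1 : (QuotientGroup.mk (e12 (liftZ A (1 : ZMod N))) :
        Matrix.SpecialLinearGroup (Fin 2) A ⧸ K) = QuotientGroup.mk (e12 1) :=
      mk_e12_eq K hqN hE (by rw [redHom_liftZ, map_one])
    have h2 : (QuotientGroup.mk (e21 (liftZ A (-1 : ZMod N))) :
        Matrix.SpecialLinearGroup (Fin 2) A ⧸ K) = QuotientGroup.mk (e21 (-1)) :=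
      mk_e21_eq K hqN hE (by rw [redHom_liftZ, map_neg, map_one])
    rw [h1, h2, ← QuotientGroup.mk_mul, ← QuotientGroup.mk_mul, weyl_eq, ← QuotientGroup.mk_pow,
      wm_pow_four, QuotientGroup.mk_one]

end Core

end Fermat.Agent.S41.IH
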